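import Fermat.Agent.S36.Mod3.H370.VT

/-!
# S36 / MOD3, cell REG, piece R-RES (helper125): the Eisenstein residue on the middle component

Levels `M q` (`q ∤ M`) and `M q q`, `α = αE E (M q) q`, `π = j_{q²} - j`, `V₂` the middle valuation
ring (`Objs.mid`, `Objs.mid_ne`).  With `U = Ψ(j)/q ∈ ℤ((t))` the Eisenstein constant of helper83
(`h83_eisenstein`, `Ū · θ j̄ = (j̄ - j̄^{q²}) (θ j̄)^q`) and `g₁ ∈ F_{Mq}` the function with
`t`-expansion `U`:

    π ^ (q - 1) / q  ≡  α(g₁) / α(j ^ (q²) - j)      modulo  𝔪_{V₂}.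

This is hypothesis `hEis` (with `U`, `hU`, `g₁`, `hg₁`) of helper922's `h922_hres_mid`
(regular_f) and of helper843's `regular_i`.

* `residue_Vc125`   : abstract, on helper972's `EisData` (same statement as helper922's
                      `h922_residue_Vc`, re-proved here because that file is not on main);
* `eisResidue125`   : the concrete statement, for `Std` + `Objs`;
* `LeafEis`, `leafEis125` : the same as ONE leaf Prop in the binder shape of `Mod3.Leaf`.
-/

set_option autoImplicit false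
set_option linter.unusedSectionVars false
set_option linter.style.haveILetI false
set_option synthInstance.maxHeartbeats 400000
set_option maxHeartbeats 1600000

noncomputable section

namespace Fermat.Agent.S36.Mod3.H125

open ModularCurve HahnSeries Polynomial AlgebraicCurve
open Fermat.Agent.A2.Mod Fermat.Agent.A2.H48 Fermat.Agent.S28
open Fermat.Agent.S36.H972 Fermat.Agent.S36.H83

/-! ## 1. The formal input, with the Eisenstein constant -/

/-- helper972's `exists_eisSeries`, keeping track of the Eisenstein constant `G(J) = Ψ(J)/q`. -/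
theorem exists_eisSeriesU125 (q : ℕ) [NeZero q] (hq : q.Prime) :
    ∃ Ψ G : (LaurentSeries ℤ)[X], EisSeries q (jqModC ℤ ^ (q ^ 2)) Ψ G ∧
      coeffMap (Int.castRingHom (ZMod q)) (G.eval (jqModC ℤ)) * thetaL (ZMod q) (jqModC (ZMod q))
        = (jqModC (ZMod q) - jqModC (ZMod q) ^ (q ^ 2))
            * thetaL (ZMod q) (jqModC (ZMod q)) ^ q := by
  have : Fact q.Prime := ⟨hq⟩
  obtain ⟨Φ⟩ := Fermat.Agent.S28.H326.nonempty_modPolyData q hq
  obtain ⟨G, hdec, hev, hG, hA⟩ := h83_eisPsi_eq_add q Φ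
  obtain ⟨U, hU1, -, hU3, -⟩ := h83_eisenstein q Φ
  have hGU : G.eval (jqModC ℤ) = U :=
    mul_left_cancel₀ (h83_natCast_ne_zero q) (hev.symm.trans hU1)
  have hJ : jqModC ℤ ∈ jjRing q := Subring.subset_closure (by simp)
  have hJq : qExpand ℤ q (jqModC ℤ) ∈ jjRing q := Subring.subset_closure (by simp)
  have hqq : qExpand ℤ (q * q) (jqModC ℤ) = qExpand ℤ q (qExpand ℤ q (jqModC ℤ)) :=
    (qExpand_qExpand q q (jqModC ℤ)).symm
  refine ⟨h83_eisPsi q Φ, G, ?_, ?_⟩
  · refine
      { monic := h83_eisPsi_monic q Φ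
        natDegree_eq := h83_eisPsi_natDegree q Φ
        coeff_mem := ?_
        root := by rw [hqq]; exact h83_eisPsi_eval_jpp q Φ
        A_mem := pow_mem hJ _
        A_cong := ?_
        A_unit := exists_not_dvd_of_red_ne_zero q hA
        dec := by rw [hdec]; ring
        unit := exists_not_dvd_of_red_ne_zero q hG }
    · intro i
      obtain ⟨Ψ₀, -, hΨ₀⟩ := h83_eisPsi_mem_lifts q Φ (jjRing q) hJ hJq
      rw [← hΨ₀, Polynomial.coeff_map]
      exact (Ψ₀.coeff i).2
    · have h0 : h83_red q (qExpand ℤ (q * q) (jqModC ℤ) - jqModC ℤ ^ (q ^ 2)) = 0 := by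
        rw [map_sub, hqq, h83_red_jpp, map_pow, h83_red_j, sub_self]
      obtain ⟨H, hH⟩ := h83_dvd_of_red_eq_zero q h0
      exact ⟨H, hH⟩
  · rw [hGU]
    exact hU3

/-! ## 2. Abstract facts on `EisData` -/

section Abstract

variable {K L : Type*} [Field K] [Field L] [Algebra K L]
variable {O : ValuationSubring K} {ϖ : K} {y : L}
variable {Ψ G : O[X]} {a c : O} {n : ℕ}

/-- The polynomial of an `EisData` is determined by `y` (it is the minimal polynomial). -/
theorem eisData_poly_unique125 [FiniteDimensional K L] (h : EisData O ϖ y Ψ G a c n)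
    {Ψ₂ : O[X]} (hΨ₂ : Ψ₂.Monic) (hprime : (Module.finrank K L).Prime)
    (hdeg : Ψ₂.natDegree = Module.finrank K L) (hy : Ψ₂.eval₂ (phi O) y = 0)
    (hyK : y ∉ (algebraMap K L).range) : Ψ = Ψ₂ := by
  have hmin := minpoly_eq_map_of_prime hΨ₂ hprime hdeg hy hyK
  have h1 : Ψ.map O.subtype = Ψ₂.map O.subtype := h.minpoly_eq.symm.trans hmin
  exact Polynomial.map_injective _ Subtype.val_injective h1

/-- **The Eisenstein constant** (statement and proof of helper922's `h922_residue_Vc`):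
`π ^ n = ϖ · (G(c)/(a - c) + π z)`, `z ∈ V_c`, `π = y - c`. -/
theorem residue_Vc125 (h : EisData O ϖ y Ψ G a c n) :
    ∃ z ∈ h.Vc, (y - algebraMap K L (c : K)) ^ n
      = algebraMap K L ϖ * (algebraMap K L ((G.eval c : O) : K)
          * (algebraMap K L (((a - c : O) : O) : K))⁻¹
          + (y - algebraMap K L (c : K)) * z) := by
  classical
  set π : L := y - algebraMap K L (c : K) with hπ
  have hϖ0 : algebraMap K L ϖ ≠ 0 := (map_ne_zero (algebraMap K L)).2 h.unif.ne_zero
  obtain ⟨u, huV, -, hu⟩ := h.exists_unit_Vc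
  have hδ : (((evS O y (G - Polynomial.C (G.eval c)) : adjoinRing O y) : L)) * π⁻¹ ∈ h.Vc := by
    have hmem : evS O y (G - Polynomial.C (G.eval c)) ∈ maxAt O y ϖ c := by
      apply evS_mem_maxAt_of
      simp
    have := @mul_inv_mem_locVal_of_mem L _ _ _ _ h.isNoetherianRing h.isMaximal_c h.locGen_c
      h.isFracOf _ hmem
    rwa [coe_evS_X_sub_C] at this
  set δ : L := (((evS O y (G - Polynomial.C (G.eval c)) : adjoinRing O y) : L)) * π⁻¹ with hδdef
  have hπ0 : π ≠ 0 := h.isUnif_Vc.ne_zero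
  have hGy : ((evS O y G : adjoinRing O y) : L)
      = algebraMap K L ((G.eval c : O) : K) + π * δ := by
    have h1 : ((evS O y (G - Polynomial.C (G.eval c)) : adjoinRing O y) : L)
        = ((evS O y G : adjoinRing O y) : L) - algebraMap K L ((G.eval c : O) : K) := by
      rw [map_sub, AddSubgroupClass.coe_sub, coe_evS_C]
    rw [hδdef, h1]
    field_simp
    ring
  have hrel := congrArg (fun s : adjoinRing O y => (s : L)) h.rel
  simp only [Subring.coe_add, Subring.coe_mul, Subring.coe_pow, Subring.coe_zero] at hrel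
  rw [h.coe_pi₀, coe_evS_X_sub_C c, coe_evS_X_sub_C a, ← hπ, hu, hGy] at hrel
  obtain ⟨v, hv⟩ := h.unit_sub.exists_right_inv
  have hvK : (((a - c : O) : O) : K) * (v : K) = 1 := by
    have := congrArg (fun s : O => (s : K)) hv
    simpa using this
  have hac0 : algebraMap K L (((a - c : O) : O) : K) ≠ 0 := by
    intro h0
    have h1 : algebraMap K L ((((a - c : O) : O) : K) * (v : K)) = 1 := by rw [hvK, map_one]
    rw [map_mul, h0, zero_mul] at h1
    exact zero_ne_one h1
  have hinv : (algebraMap K L (((a - c : O) : O) : K))⁻¹ = algebraMap K L (v : K) := by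
    apply inv_eq_of_mul_eq_one_right
    rw [← map_mul, hvK, map_one]
  have hvV : algebraMap K L (v : K) ∈ h.Vc := (h.algebraMap_mem_Vc_iff _).2 v.2
  have hya : y - algebraMap K L (a : K)
      = π - algebraMap K L (((a - c : O) : O) : K) := by
    have hcoe : (((a - c : O) : O) : K) = (a : K) - (c : K) := rfl
    rw [hπ, hcoe, map_sub]
    ring
  rw [hya] at hrel
  refine ⟨(δ + u) * algebraMap K L (v : K), h.Vc.mul_mem _ _ (h.Vc.add_mem _ _ hδ huV) hvV, ?_⟩
  rw [hu, hinv]
  congr 1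
  have hcancel : (π - algebraMap K L (((a - c : O) : O) : K)) * u
      + (algebraMap K L ((G.eval c : O) : K) + π * δ) = 0 := by
    apply mul_left_cancel₀ hϖ0
    rw [mul_zero, ← hrel]
    ring
  have hvL : algebraMap K L (((a - c : O) : O) : K) * algebraMap K L (v : K) = 1 := by
    rw [← map_mul, hvK, map_one]
  clear_value δ π
  linear_combination (-(algebraMap K L (v : K))) * hcancel + (-u) * hvL

/-- The uniformiser `π = y - c` of `V_c` lies in its maximal ideal. -/
theorem pi_mem_nonunits_Vc125 (h : EisData O ϖ y Ψ G a c n) :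
    y - algebraMap K L (c : K) ∈ h.Vc.nonunits := by
  rw [ValuationSubring.mem_nonunits_iff_or]
  exact Or.inr h.isUnif_Vc.inv_not_mem

end Abstract

/-! ## 3. The concrete statement -/

section Concrete

variable {P : ValuationSubring Qb} {E : IntermediateField ℚ Qb} {M q : ℕ} [NeZero M] [NeZero q]
  {w : RE P E}

theorem coe_jtop125 : ((H972.jtop E M q : FE E (M * q * q)) : LaurentSeries E) = castE E (jqModC ℤ) := by
  rw [H972.jtop, coe_jE', qExpand_one_apply]

/-- `π = j_{q²} - j` is a unit of the Gauss valuation ring of level `M q q`. -/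
theorem pi_inv_mem_vinf125 (hq : q.Prime) (hP : P.LiesOverPrime q)
    {V : ValuationSubring (FE E (M * q * q))} (hV : IsVinf P E (M * q * q) V) :
    (H972.jqq E M q - H972.jtop E M q)⁻¹ ∈ V := by
  refine inv_mem_of_castE hq hP hV
    (g := (qExpand ℤ (q * q) (jqModC ℤ) - jqModC ℤ : LaurentSeries ℤ)) ?_ ⟨-1, ?_⟩
  · rw [map_sub, ← coe_jqq (E := E) (M := M) (q := q), ← coe_jtop125 (E := E) (M := M) (q := q)]
    rfl
  · have h1 : ¬ (((q * q : ℕ) : ℤ) ∣ (-1 : ℤ)) := by
      intro hd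
      have h2 : ((q * q : ℕ) : ℤ) ∣ 1 := (dvd_neg).mp hd
      have h3 := Int.le_of_dvd (by norm_num) h2
      have h4 : (1 : ℤ) < ((q * q : ℕ) : ℤ) := by
        have := hq.one_lt
        have h5 : 1 < q * q := by nlinarith
        exact_mod_cast h5
      omega
    rw [HahnSeries.coeff_sub, qExpand_coeff_of_not_dvd (q * q) _ h1, coeff_jqModC_neg_one, zero_sub]
    intro hd
    have h2 : (q : ℤ) ∣ 1 := (dvd_neg).mp hd
    have h3 := Int.le_of_dvd (by norm_num) h2
    have h4 : (1 : ℤ) < q := by exact_mod_cast hq.one_lt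
    omega

theorem nonunits_mul_mem125 {F : Type*} [Field F] (V : ValuationSubring F) {x y : F}
    (hx : x ∈ V.nonunits) (hy : y ∈ V) : x * y ∈ V.nonunits := by
  rw [ValuationSubring.mem_nonunits_iff, map_mul]
  exact mul_lt_one_of_lt_of_le ((V.mem_nonunits_iff).1 hx) ((V.valuation_le_one_iff y).2 hy)

/-- **The Eisenstein residue on the middle component** (core form): `V1 = V∞(Mq)`,
`V = V∞(Mqq)`, `V₂ ≠ V` ANY valuation ring of `F_{Mqq}` lying over `V1` along `α`. -/
theorem eisResidue_core125 (hS : Setting P E M q w) (hun : Unram P E q w)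
    {V1 : ValuationSubring (FE E (M * q))} (hV1 : IsVinf P E (M * q) V1)
    {V : ValuationSubring (FE E (M * q * q))} (hV : IsVinf P E (M * q * q) V)
    {V₂ : ValuationSubring (FE E (M * q * q))}
    (hover : ∀ k, αE E (M * q) q k ∈ V₂ ↔ k ∈ V1) (hne : V₂ ≠ V) :
    ∃ (U : LaurentSeries ℤ) (g₁ : FE E (M * q)),
      coeffMap (Int.castRingHom (ZMod q)) U * thetaL (ZMod q) (jqModC (ZMod q))
        = (jqModC (ZMod q) - jqModC (ZMod q) ^ (q ^ 2))
            * thetaL (ZMod q) (jqModC (ZMod q)) ^ q ∧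
      (g₁ : LaurentSeries E) = castE E U ∧
      (H972.jqq E M q - H972.jtop E M q) ^ (q - 1) * (algebraMap E (FE E (M * q * q)) (q : E))⁻¹
        - αE E (M * q) q g₁ * (αE E (M * q) q (H972.jone E M q ^ (q ^ 2) - H972.jone E M q))⁻¹
        ∈ V₂.nonunits := by
  letI : Algebra (FE E (M * q)) (FE E (M * q * q)) := algebraAlong (αE E (M * q) q)
  haveI := hS.dvr
  have hq := hS.q_prime
  haveI : FiniteDimensional (FE E (M * q)) (FE E (M * q * q)) := finite_alpha hq
  obtain ⟨Ψ, G, hE, hU⟩ := exists_eisSeriesU125 q hq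
  obtain ⟨Ψ', G', a, c, ha, hcj, h⟩ := exists_eisData hS hun hE hV1
  have halg : ∀ k : FE E (M * q),
      algebraMap (FE E (M * q)) (FE E (M * q * q)) k = αE E (M * q) q k := fun k => rfl
  have hc' : algebraMap (FE E (M * q)) (FE E (M * q * q)) (c : FE E (M * q)) = H972.jtop E M q := by
    rw [halg, hcj, alpha_jone]
  have hw' : algebraMap (FE E (M * q)) (FE E (M * q * q)) (cE P E (M * q) w) =
      cE P E (M * q * q) w := by
    rw [halg, alpha_cE']
  -- (1) `V₂ = V_c`
  have hoverV : ∀ k : FE E (M * q),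
      algebraMap (FE E (M * q)) (FE E (M * q * q)) k ∈ V ↔ k ∈ V1 := fun k => by
    rw [halg]
    exact alpha_mem_iff' hV1 hV k
  have hoverV₂ : ∀ k : FE E (M * q),
      algebraMap (FE E (M * q)) (FE E (M * q * q)) k ∈ V₂ ↔ k ∈ V1 := fun k => by
    rw [halg]
    exact hover k
  have hπc := pi_mem_nonunits_Vc125 h
  rw [hc'] at hπc
  have hVne : V ≠ h.Vc := by
    intro h2
    rw [← h2, ValuationSubring.mem_nonunits_iff_or] at hπc
    rcases hπc with h3 | h3
    · have := h.isUnif_Vc.ne_zero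
      rw [hc'] at this
      exact this h3
    · exact h3 (pi_inv_mem_vinf125 hq hS.lies_over hV)
  have hV₂ : V₂ = h.Vc := by
    rcases h.eq_Va_or_eq_Vc V₂ hoverV₂ with h1 | h1
    · exfalso
      rcases h.eq_Va_or_eq_Vc V hoverV with h2 | h2
      · exact hne (h1.trans h2.symm)
      · exact hVne h2
    · exact h1
  -- (2) the polynomial `Ψ'` is the lift of the formal `Ψ`
  obtain ⟨Ψ₂, hΨ₂⟩ := exists_lift_poly hV1 Ψ
    (fun i => castE_mem_of_mem_jjRing (hE.coeff_mem i))
  have hinj := valV_injective V1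
  have hmonic : Ψ₂.Monic := Polynomial.monic_of_injective hinj (by rw [hΨ₂]; exact hE.monic.map _)
  have hdeg : Ψ₂.natDegree = Module.finrank (FE E (M * q)) (FE E (M * q * q)) := by
    rw [finrank_alpha hq, ← Polynomial.natDegree_map_eq_of_injective hinj, hΨ₂,
      hE.monic.natDegree_map, hE.natDegree_eq]
  have hroot : Ψ₂.eval₂ (phi V1) (H972.jqq E M q) = 0 := by
    apply (H378.valHom E (M * q * q)).injective
    rw [Polynomial.hom_eval₂, valHom_comp_phi, map_zero, ← Polynomial.eval_map, hΨ₂,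
      H378.valHom_apply, coe_jqq, Polynomial.eval_map, Polynomial.eval₂_at_apply, hE.root,
      map_zero]
  have hyK : H972.jqq E M q ∉ (algebraMap (FE E (M * q)) (FE E (M * q * q))).range := by
    rintro ⟨g, hg⟩
    exact jqq_not_mem_range hS.q_not_dvd g hg
  have hprime : (Module.finrank (FE E (M * q)) (FE E (M * q * q))).Prime := by
    rw [finrank_alpha hq]
    exact hq
  have hΨeq : Ψ' = Ψ₂ := eisData_poly_unique125 h hmonic hprime hdeg hroot hyK
  -- (3) the expansion of `Ψ'(c) = ϖ G'(c)`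
  have hcser : valV V1 c = castE E (jqModC ℤ) := by
    rw [valV_apply, hcj, coe_jone]
  have hΨc : valV V1 (Ψ'.eval c) = castE E (Ψ.eval (jqModC ℤ)) := by
    have h1 : valV V1 (Ψ'.eval c) = (Ψ'.map (valV V1)).eval (valV V1 c) := by
      rw [Polynomial.eval_map, Polynomial.eval₂_at_apply]
    rw [h1, hΨeq, hΨ₂, hcser, Polynomial.eval_map, Polynomial.eval₂_at_apply]
  have hq1 : q - 1 ≠ 0 := by have := hq.two_le; omega
  have hΨJ : Ψ.eval (jqModC ℤ) = (q : LaurentSeries ℤ) * G.eval (jqModC ℤ) := by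
    conv_lhs => rw [hE.dec]
    simp [hq1]
  set U : LaurentSeries ℤ := G.eval (jqModC ℤ) with hUdef
  obtain ⟨u, hu⟩ := hun
  have hq0E : ((q : ℕ) : LaurentSeries E) ≠ 0 := by
    have : ((q : ℕ) : LaurentSeries E) = algebraMap E (LaurentSeries E) ((q : ℕ) : E) :=
      (map_natCast _ q).symm
    rw [this]
    exact (map_ne_zero_iff _ (algebraMap E (LaurentSeries E)).injective).mpr
      (Nat.cast_ne_zero.mpr hq.ne_zero)
  have hqmem : ((q : ℕ) : LaurentSeries E) ∈ FE E (M * q) := natCast_mem _ q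
  have hΨcser : (((Ψ'.eval c : V1) : FE E (M * q)) : LaurentSeries E)
      = ((q : ℕ) : LaurentSeries E) * castE E U := by
    rw [← valV_apply, hΨc, hΨJ, map_mul, castE_natCast]
  have hUmem : castE E U ∈ FE E (M * q) := by
    have h2 : castE E U = ((q : ℕ) : LaurentSeries E)⁻¹ *
        (((q : ℕ) : LaurentSeries E) * castE E U) := by
      rw [← mul_assoc, inv_mul_cancel₀ hq0E, one_mul]
    rw [h2, ← hΨcser]
    exact mul_mem (inv_mem hqmem) ((Ψ'.eval c : V1) : FE E (M * q)).2
  set g₁ : FE E (M * q) := ⟨castE E U, hUmem⟩ with hg₁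
  have hg₁ser : (g₁ : LaurentSeries E) = castE E U := rfl
  -- `ϖ G'(c) = q g₁` in `F_{Mq}`
  have hqF' : ((q : ℕ) : FE E (M * q)) = cE P E (M * q) w * cE P E (M * q) (u : RE P E) := by
    show ((q : ℕ) : FE E (M * q)) = algebraMap E (FE E (M * q)) (w : E)
      * algebraMap E (FE E (M * q)) ((u : RE P E) : E)
    rw [← map_mul, ← hu, map_natCast]
  have hqF : algebraMap E (FE E (M * q * q)) ((q : ℕ) : E)
      = cE P E (M * q * q) w * cE P E (M * q * q) (u : RE P E) := by
    show algebraMap E (FE E (M * q * q)) ((q : ℕ) : E) = algebraMap E (FE E (M * q * q)) (w : E)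
      * algebraMap E (FE E (M * q * q)) ((u : RE P E) : E)
    rw [← map_mul, ← hu]
  have hL2 := H553.vinfBasic P E w (M * q) (NeZero.ne _) hS.dvr hS.unif V1 hV1
  have hw0 : cE P E (M * q) w ≠ 0 := hL2.1.ne_zero
  have hΨcG : ((Ψ'.eval c : V1) : FE E (M * q))
      = cE P E (M * q) w * ((G'.eval c : V1) : FE E (M * q)) := by
    rw [h.eval_c]
    rfl
  have hqg : ((Ψ'.eval c : V1) : FE E (M * q)) = ((q : ℕ) : FE E (M * q)) * g₁ := by
    apply Subtype.ext
    rw [hΨcser]
    rfl
  have hGc : ((G'.eval c : V1) : FE E (M * q)) = cE P E (M * q) (u : RE P E) * g₁ := by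
    apply mul_left_cancel₀ hw0
    rw [← hΨcG, hqg, hqF', mul_assoc]
  -- `a = j ^ (q²)`
  have haj : (a : FE E (M * q)) = H972.jone E M q ^ (q ^ 2) := by
    apply Subtype.ext
    rw [← valV_apply, ha, map_pow, ← coe_jone (E := E) (M := M) (q := q)]
    rfl
  have hac : (((a - c : V1) : V1) : FE E (M * q)) = H972.jone E M q ^ (q ^ 2) - H972.jone E M q := by
    rw [← haj, ← hcj]
    rfl
  -- (4) the residue
  obtain ⟨z, hz, hrel⟩ := residue_Vc125 h
  rw [hc', hw', halg, halg, hGc, hac, map_mul, alpha_cE'] at hrel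
  refine ⟨U, g₁, hU, hg₁ser, ?_⟩
  rw [hV₂, hqF]
  set π : FE E (M * q * q) := H972.jqq E M q - H972.jtop E M q with hπ
  set D : FE E (M * q * q) := αE E (M * q) q (H972.jone E M q ^ (q ^ 2) - H972.jone E M q) with hD
  have hwF0 : cE P E (M * q * q) w ≠ 0 := by
    rw [← alpha_cE']
    exact (map_ne_zero_iff _ (αE E (M * q) q).toRingHom.injective).mpr hw0
  have hu0 : cE P E (M * q * q) (u : RE P E) ≠ 0 := by
    show algebraMap E (FE E (M * q * q)) ((u : RE P E) : E) ≠ 0
    exact (map_ne_zero_iff _ (algebraMap E (FE E (M * q * q))).injective).mpr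
      (fun h0 => u.ne_zero (Subtype.ext h0))
  have huinv : (cE P E (M * q * q) (u : RE P E))⁻¹ ∈ h.Vc := by
    have h1 : (cE P E (M * q * q) (u : RE P E))⁻¹
        = algebraMap (FE E (M * q)) (FE E (M * q * q))
            (cE P E (M * q) ((u⁻¹ : (RE P E)ˣ) : RE P E)) := by
      rw [halg, alpha_cE']
      show (algebraMap E (FE E (M * q * q)) ((u : RE P E) : E))⁻¹ = algebraMap E (FE E (M * q * q)) _
      rw [← map_inv₀]
      congr 1
      apply inv_eq_of_mul_eq_one_right
      have h5 := congrArg (RE P E).subtype u.mul_inv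
      rw [map_mul, map_one] at h5
      exact h5
    rw [h1]
    exact (h.algebraMap_mem_Vc_iff _).2 (cE_mem_vinf hV1 _)
  have hkey : π ^ (q - 1) * (cE P E (M * q * q) w * cE P E (M * q * q) (u : RE P E))⁻¹
      - αE E (M * q) q g₁ * D⁻¹ = π * (z * (cE P E (M * q * q) (u : RE P E))⁻¹) := by
    rw [hrel]
    field_simp
    ring
  rw [hkey]
  exact nonunits_mul_mem125 _ hπc (h.Vc.mul_mem _ _ hz huinv)

end Concrete

/-! ## 4. On the objects of `Mod3/Spec.lean` -/

section Leaf

variable {P : ValuationSubring Qb} {E : IntermediateField ℚ Qb} {M q : ℕ}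
  [NeZero M] [NeZero q] [NeZero (M * q)] {w : RE P E}

/-- **`hEis` on `Objs`**, in the EXACT shape of the hypotheses `U`, `hU`, `g₁`, `hg₁`, `hEis` of
helper922's `h922_hres_mid` (level `M₁ = M * q`, `V = V₂` the middle valuation ring):
`π^(q-1)/q ≡ α(g₁)/α(j^(q²) - j)` modulo `𝔪_{V₂}`, `π = β(j_q) - α(j) = j_{q²} - j`. -/
theorem eisResidue125 (hStd : Mod3.Std P E M q w)
    {V₁' V₂' : ValuationSubring (FE E (M * q))}
    {V₁ V₂ V₃ : ValuationSubring (FE E (M * q * q))}
    {W' : FE E (M * q) ≃ₐ[E] FE E (M * q)} {W : FE E (M * q * q) ≃ₐ[E] FE E (M * q * q)}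
    (hO : Mod3.Objs P E M q V₁' V₂' V₁ V₂ V₃ W' W) :
    ∃ (U : LaurentSeries ℤ) (g₁ : FE E (M * q)),
      coeffMap (Int.castRingHom (ZMod q)) U * thetaL (ZMod q) (jqModC (ZMod q))
        = (jqModC (ZMod q) - jqModC (ZMod q) ^ (q ^ 2))
            * thetaL (ZMod q) (jqModC (ZMod q)) ^ q ∧
      (g₁ : LaurentSeries E) = coeffMap (Int.castRingHom E) U ∧
      (βE E (M * q) q (jE E (M * q) q (dvd_mul_left q M))
            - αE E (M * q) q (jE E (M * q) 1 (one_dvd _))) ^ (q - 1)
          * (algebraMap E (FE E (M * q * q)) (q : E))⁻¹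
        - αE E (M * q) q g₁
          * (αE E (M * q) q (jE E (M * q) 1 (one_dvd _) ^ (q ^ 2)
              - jE E (M * q) 1 (one_dvd _)))⁻¹
        ∈ V₂.nonunits := by
  have hS : Setting P E M q w :=
    ⟨hStd.q_prime, hStd.q_not_dvd, NeZero.ne M, hStd.lies_over, hStd.unram.1.dvr, hStd.unif⟩
  have hun : Unram P E q w :=
    Mod3.H370.unram_of_std370 (Fermat.Agent.S36.H370.SettingQ.of_setting hS) hStd.unram
  have hover : ∀ k, αE E (M * q) q k ∈ V₂ ↔ k ∈ V₁' := fun k => by
    rw [← hO.mid, ValuationSubring.mem_comap]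
    rfl
  obtain ⟨U, g₁, hU, hg₁, hres⟩ := eisResidue_core125 hS hun hO.vinf' hO.vinf hover hO.mid_ne
  refine ⟨U, g₁, hU, hg₁, ?_⟩
  have hβ : βE E (M * q) q (jE E (M * q) q (dvd_mul_left q M)) = H972.jqq E M q :=
    H553.βE_jE E (M * q) q q (dvd_mul_left q M)
  have hα : αE E (M * q) q (jE E (M * q) 1 (one_dvd _)) = H972.jtop E M q := alpha_jone
  rw [hβ, hα]
  exact hres

/-- **EIS (leaf)**: the Eisenstein residue on the middle component, as ONE leaf Prop in the
binder shape of `Mod3.Leaf` (consumers: `regular_f` via `h922_hres_mid`, `regular_i`). -/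
def LeafEis125 : Prop :=
  Mod3.Leaf fun _ E M q _ _ _ _ _ _ _ V₂ _ =>
    ∃ (U : LaurentSeries ℤ) (g₁ : FE E (M * q)),
      coeffMap (Int.castRingHom (ZMod q)) U * thetaL (ZMod q) (jqModC (ZMod q))
        = (jqModC (ZMod q) - jqModC (ZMod q) ^ (q ^ 2))
            * thetaL (ZMod q) (jqModC (ZMod q)) ^ q ∧
      (g₁ : LaurentSeries E) = coeffMap (Int.castRingHom E) U ∧
      (βE E (M * q) q (jE E (M * q) q (dvd_mul_left q M))
            - αE E (M * q) q (jE E (M * q) 1 (one_dvd _))) ^ (q - 1)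
          * (algebraMap E (FE E (M * q * q)) (q : E))⁻¹
        - αE E (M * q) q g₁
          * (αE E (M * q) q (jE E (M * q) 1 (one_dvd _) ^ (q ^ 2)
              - jE E (M * q) 1 (one_dvd _)))⁻¹
        ∈ V₂.nonunits

/-- **EIS (leaf)**, unconditional. -/
theorem leafEis125 : LeafEis125 := by
  intro P E M q _ _ _ w hStd V₁' V₂' V₁ V₂ V₃ W' W hO
  exact eisResidue125 hStd hO

/-- The same congruence in the vocabulary of `Mod3/Spec.lean`:
`π = Mod3.jqq - Mod3.j1`, `j = jE E (M q) 1`. -/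
theorem eisResidue_spec125 (hStd : Mod3.Std P E M q w)
    {V₁' V₂' : ValuationSubring (FE E (M * q))}
    {V₁ V₂ V₃ : ValuationSubring (FE E (M * q * q))}
    {W' : FE E (M * q) ≃ₐ[E] FE E (M * q)} {W : FE E (M * q * q) ≃ₐ[E] FE E (M * q * q)}
    (hO : Mod3.Objs P E M q V₁' V₂' V₁ V₂ V₃ W' W) :
    ∃ (U : LaurentSeries ℤ) (g₁ : FE E (M * q)),
      coeffMap (Int.castRingHom (ZMod q)) U * thetaL (ZMod q) (jqModC (ZMod q))
        = (jqModC (ZMod q) - jqModC (ZMod q) ^ (q ^ 2))
            * thetaL (ZMod q) (jqModC (ZMod q)) ^ q ∧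
      (g₁ : LaurentSeries E) = coeffMap (Int.castRingHom E) U ∧
      (Mod3.jqq E M q - Mod3.j1 E M q) ^ (q - 1) * (algebraMap E (FE E (M * q * q)) (q : E))⁻¹
        - αE E (M * q) q g₁
          * (αE E (M * q) q (jE E (M * q) 1 (one_dvd _) ^ (q ^ 2)
              - jE E (M * q) 1 (one_dvd _)))⁻¹
        ∈ V₂.nonunits := by
  obtain ⟨U, g₁, hU, hg₁, hres⟩ := eisResidue125 hStd hO
  refine ⟨U, g₁, hU, hg₁, ?_⟩
  have hβ : βE E (M * q) q (jE E (M * q) q (dvd_mul_left q M)) = Mod3.jqq E M q :=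
    H553.βE_jE E (M * q) q q (dvd_mul_left q M)
  have hα : αE E (M * q) q (jE E (M * q) 1 (one_dvd _)) = Mod3.j1 E M q :=
    H553.αE_jE E (M * q) q 1 (one_dvd _)
  rw [hβ, hα] at hres
  exact hres

end Leaf

end Fermat.Agent.S36.Mod3.H125

end
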